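/-
T14 package NS (helper21): shared definitions for the two halves of `exists_prime_not_split`.
NS-a (analytic, one field)  : `Fermat/Agent/S14/NonSplit/PrimeSum.lean`
NS-b (comparison `L/K`, CMP): `Fermat/Agent/S14/NonSplit/Compare.lean`
-/
import Mathlib

set_option autoImplicit false

open NumberField

namespace Fermat.Agent.S14.NonSplit

variable (F : Type*) [Field F] [NumberField F]

/-- The (finite) set of prime ideals of `𝓞 F` whose absolute norm is a prime number `≤ X`
("degree one primes of norm at most `X`"). -/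
noncomputable def degOnePrimes (X : ℕ) : Finset (Ideal (𝓞 F)) :=
  open Classical in
  (Ideal.finite_setOfPred_absNorm_le (S := 𝓞 F) X).toFinset.filter
    (fun P => P.IsPrime ∧ (Ideal.absNorm P).Prime)

variable {F} in
lemma mem_degOnePrimes {X : ℕ} {P : Ideal (𝓞 F)} :
    P ∈ degOnePrimes F X ↔ P.IsPrime ∧ (Ideal.absNorm P).Prime ∧ Ideal.absNorm P ≤ X := by
  classical
  simp only [degOnePrimes, Finset.mem_filter, Set.Finite.mem_toFinset, Set.mem_ofPred_eq]
  tauto

variable {F} in
lemma ne_bot_of_mem_degOnePrimes {X : ℕ} {P : Ideal (𝓞 F)} (h : P ∈ degOnePrimes F X) :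
    P ≠ ⊥ := by
  rintro rfl
  have := (mem_degOnePrimes.mp h).2.1
  simp [Nat.not_prime_zero] at this

/-- `∑ N P ^ (-s)` over the degree one primes of norm at most `X`. -/
noncomputable def primeSum (X : ℕ) (s : ℝ) : ℝ :=
  ∑ P ∈ degOnePrimes F X, (Ideal.absNorm P : ℝ) ^ (-s)

end Fermat.Agent.S14.NonSplit
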