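/-
T14 package NS-a (helper21): the abstract "Euler product upper bound": in a Dedekind domain, for
a multiplicative weight `w` on ideals, a finite sum of `w I` over distinct nonzero ideals whose prime
factors lie in a finite set `T` is at most `∏_{𝔭 ∈ T} (1 - w 𝔭)⁻¹`.
-/
import Mathlib

set_option autoImplicit false

open UniqueFactorizationMonoid

namespace Fermat.Agent.S14.NonSplit

lemma geom_sum_le_inv {x : ℝ} (h0 : 0 ≤ x) (h1 : x < 1) (E : ℕ) :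
    ∑ k ∈ Finset.range E, x ^ k ≤ (1 - x)⁻¹ := by
  have h := geom_sum_mul_neg x E
  have hpos : 0 < 1 - x := by linarith
  have : 0 ≤ x ^ E := pow_nonneg h0 E
  rw [← one_div, le_div_iff₀ hpos, h]
  linarith

variable {R : Type*} [CommRing R] [IsDedekindDomain R]

/-- A nonzero ideal whose prime factors lie in `T` is the product over `T` of the prime powers. -/
lemma eq_prod_pow_count [DecidableEq (Ideal R)] (T : Finset (Ideal R)) (I : Ideal R) (hI : I ≠ ⊥)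
    (hT : ∀ 𝔭 ∈ normalizedFactors I, 𝔭 ∈ T) :
    I = ∏ 𝔭 ∈ T, 𝔭 ^ (normalizedFactors I).count 𝔭 := by
  rw [← Finset.prod_multiset_count_of_subset (normalizedFactors I) T
    (fun 𝔭 h𝔭 => hT 𝔭 (Multiset.mem_toFinset.mp h𝔭)), Ideal.prod_normalizedFactors_eq_self hI]

theorem sum_le_prod_inv_one_sub (w : Ideal R →* ℝ) (T : Finset (Ideal R))
    (hT : ∀ 𝔭 ∈ T, 0 ≤ w 𝔭 ∧ w 𝔭 < 1) (A : Finset (Ideal R))
    (hA : ∀ I ∈ A, I ≠ ⊥ ∧ ∀ 𝔭 ∈ normalizedFactors I, 𝔭 ∈ T) :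
    ∑ I ∈ A, w I ≤ ∏ 𝔭 ∈ T, (1 - w 𝔭)⁻¹ := by
  classical
  -- bound for the exponents
  set E : ℕ := A.sup (fun I => Multiset.card (normalizedFactors I)) + 1 with hE
  -- exponent vector
  let φ : Ideal R → (↥T → ℕ) := fun I 𝔭 => (normalizedFactors I).count 𝔭.1
  have hφ : ∀ I ∈ A, w I = ∏ 𝔭 : ↥T, w 𝔭.1 ^ φ I 𝔭 := by
    intro I hI
    conv_lhs => rw [eq_prod_pow_count T I (hA I hI).1 (hA I hI).2]
    rw [map_prod, ← Finset.prod_coe_sort]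
    simp only [map_pow, φ]
  have hinj : Set.InjOn φ (A : Set (Ideal R)) := by
    intro I hI J hJ h
    rw [eq_prod_pow_count T I (hA I hI).1 (hA I hI).2,
      eq_prod_pow_count T J (hA J hJ).1 (hA J hJ).2, ← Finset.prod_coe_sort,
      ← Finset.prod_coe_sort (f := fun 𝔭 => 𝔭 ^ (normalizedFactors J).count 𝔭)]
    refine Finset.prod_congr rfl fun 𝔭 _ => ?_
    have := congrFun h 𝔭
    simp only [φ] at this
    rw [this]
  have hmem : ∀ I ∈ A, φ I ∈ Fintype.piFinset (fun _ : ↥T => Finset.range E) := by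
    intro I hI
    rw [Fintype.mem_piFinset]
    intro 𝔭
    rw [Finset.mem_range, hE, Nat.lt_succ_iff]
    exact (Multiset.count_le_card _ _).trans
      (Finset.le_sup (f := fun I => Multiset.card (normalizedFactors I)) hI)
  calc ∑ I ∈ A, w I = ∑ I ∈ A, ∏ 𝔭 : ↥T, w 𝔭.1 ^ φ I 𝔭 := Finset.sum_congr rfl hφ
    _ = ∑ v ∈ A.image φ, ∏ 𝔭 : ↥T, w 𝔭.1 ^ v 𝔭 :=
        (Finset.sum_image (f := fun v : ↥T → ℕ => ∏ 𝔭 : ↥T, w 𝔭.1 ^ v 𝔭) hinj).symm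
    _ ≤ ∑ v ∈ Fintype.piFinset (fun _ : ↥T => Finset.range E), ∏ 𝔭 : ↥T, w 𝔭.1 ^ v 𝔭 := by
        refine Finset.sum_le_sum_of_subset_of_nonneg ?_ ?_
        · intro v hv
          obtain ⟨I, hI, rfl⟩ := Finset.mem_image.mp hv
          exact hmem I hI
        · intro v _ _
          exact Finset.prod_nonneg fun 𝔭 _ => pow_nonneg (hT 𝔭.1 𝔭.2).1 _
    _ = ∏ 𝔭 : ↥T, ∑ k ∈ Finset.range E, w 𝔭.1 ^ k :=
        (Finset.prod_univ_sum (fun _ : ↥T => Finset.range E) (fun 𝔭 k => w 𝔭.1 ^ k)).symm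
    _ ≤ ∏ 𝔭 : ↥T, (1 - w 𝔭.1)⁻¹ := by
        refine Finset.prod_le_prod (fun 𝔭 _ => Finset.sum_nonneg fun k _ =>
          pow_nonneg (hT 𝔭.1 𝔭.2).1 _) (fun 𝔭 _ => geom_sum_le_inv (hT 𝔭.1 𝔭.2).1 (hT 𝔭.1 𝔭.2).2 E)
    _ = ∏ 𝔭 ∈ T, (1 - w 𝔭)⁻¹ := Finset.prod_coe_sort T (fun 𝔭 => (1 - w 𝔭)⁻¹)

end Fermat.Agent.S14.NonSplit
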