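/-
T14 package NS-a (helper21): the real Dedekind zeta function of a number field as a real series,
its link with `NumberField.dedekindZeta`, the residue, and the comparison of finite sums over
ideals with the series.
-/
import Mathlib

set_option autoImplicit false

open NumberField Filter Topology

namespace Fermat.Agent.S14.NonSplit

variable (F : Type*) [Field F] [NumberField F]

/-- Number of integral ideals of norm `n`. -/
noncomputable def idealCount (n : ℕ) : ℕ := Nat.card {I : Ideal (𝓞 F) // Ideal.absNorm I = n}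

/-- The real Dedekind zeta function as a real series. -/
noncomputable def zetaR (s : ℝ) : ℝ := ∑' n : ℕ, (idealCount F n : ℝ) * (n : ℝ) ^ (-s)

lemma idealCount_zero : idealCount F 0 = 1 := by
  simp [idealCount, Ideal.absNorm_eq_zero_iff]

lemma zetaTerm_nonneg (s : ℝ) (n : ℕ) : 0 ≤ (idealCount F n : ℝ) * (n : ℝ) ^ (-s) := by
  positivity

/-- The L-series of the ideal counting function converges for real `s > 1`. -/
lemma lseriesSummable_idealCount {s : ℝ} (hs : 1 < s) :
    LSeriesSummable (fun n => ((idealCount F n : ℝ) : ℂ)) (s : ℂ) := by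
  have hlim : Tendsto (fun n : ℕ ↦ (∑ k ∈ Finset.Icc 1 n, (idealCount F k : ℝ)) / (n : ℝ)) atTop
      (𝓝 (dedekindZeta_residue F)) := by
    refine ((Ideal.tendsto_norm_le_div_atTop₀ F).comp tendsto_natCast_atTop_atTop).congr fun n ↦ ?_
    simp only [Function.comp_apply, Nat.cast_le, ← Nat.cast_sum, idealCount]
    congr
    rw [← add_left_inj 1, ← Ideal.card_norm_le_eq_card_norm_le_add_one,
      show Finset.Icc 1 n = Finset.Ioc 0 n from Finset.Icc_succ_left_eq_Ioc _ _,
      show 1 = Nat.card {I : Ideal (𝓞 F) // Ideal.absNorm I = 0} by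
        simp [Ideal.absNorm_eq_zero_iff],
      Finset.sum_Ioc_add_eq_sum_Icc (n.zero_le),
      ← Finset.card_preimage_eq_sum_card_image_eq
        (fun k _ ↦ Ideal.finite_setOfPred_absNorm_eq k)]
    simp [Set.coe_eq_subtype]
  refine LSeriesSummable_of_sum_norm_bigO_and_nonneg ?_ (fun _ => Nat.cast_nonneg _) zero_le_one
    (by simpa using hs)
  exact Asymptotics.isBigO_atTop_natCast_rpow_of_tendsto_div_rpow (by simpa using hlim)

lemma term_eq_ofReal {s : ℝ} (hs : 0 < s) (n : ℕ) :
    LSeries.term (fun n => ((idealCount F n : ℝ) : ℂ)) (s : ℂ) n =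
      (((idealCount F n : ℝ) * (n : ℝ) ^ (-s) : ℝ) : ℂ) := by
  rcases eq_or_ne n 0 with rfl | hn
  · simp [Real.zero_rpow (neg_ne_zero.mpr hs.ne')]
  · rw [LSeries.term_of_ne_zero hn, Complex.ofReal_mul,
      Complex.ofReal_cpow (Nat.cast_nonneg n), Complex.ofReal_neg, Complex.cpow_neg,
      div_eq_mul_inv]
    simp

lemma summable_zetaTerm {s : ℝ} (hs : 1 < s) :
    Summable (fun n : ℕ => (idealCount F n : ℝ) * (n : ℝ) ^ (-s)) := by
  have h := lseriesSummable_idealCount F hs
  unfold LSeriesSummable at h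
  have h2 : Summable (fun n : ℕ => (((idealCount F n : ℝ) * (n : ℝ) ^ (-s) : ℝ) : ℂ)) :=
    h.congr (fun n => term_eq_ofReal F (by linarith) n)
  exact Complex.summable_ofReal.mp h2

lemma dedekindZeta_eq_zetaR {s : ℝ} (hs : 1 < s) :
    dedekindZeta F (s : ℂ) = ((zetaR F s : ℝ) : ℂ) := by
  unfold dedekindZeta zetaR LSeries
  rw [Complex.ofReal_tsum]
  refine tsum_congr fun n => ?_
  have := term_eq_ofReal F (s := s) (by linarith) n
  simpa [idealCount] using this

/-- The residue: `(s - 1) ζ_F(s) → ρ_F > 0` as `s → 1⁺`, in real form. -/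
lemma tendsto_sub_one_mul_zetaR :
    Tendsto (fun s : ℝ => (s - 1) * zetaR F s) (𝓝[>] 1) (𝓝 (dedekindZeta_residue F)) := by
  have h := tendsto_sub_one_mul_dedekindZeta_nhdsGT F
  have h2 : Tendsto (fun s : ℝ => (((s - 1) * zetaR F s : ℝ) : ℂ)) (𝓝[>] 1)
      (𝓝 ((dedekindZeta_residue F : ℝ) : ℂ)) := by
    refine h.congr' ?_
    filter_upwards [self_mem_nhdsWithin] with s hs
    rw [dedekindZeta_eq_zetaR F hs]
    push_cast
    ring
  have h3 := (Complex.continuous_re.tendsto _).comp h2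
  rw [Complex.ofReal_re] at h3
  refine h3.congr fun s => ?_
  simp only [Function.comp_apply, Complex.ofReal_re]

lemma zetaR_nonneg (s : ℝ) : 0 ≤ zetaR F s := tsum_nonneg (zetaTerm_nonneg F s)

/-- Partial sums are bounded by the series. -/
lemma sum_le_zetaR {s : ℝ} (hs : 1 < s) (A : Finset ℕ) :
    ∑ n ∈ A, (idealCount F n : ℝ) * (n : ℝ) ^ (-s) ≤ zetaR F s :=
  (summable_zetaTerm F hs).sum_le_tsum A (fun n _ => zetaTerm_nonneg F s n)

/-- (Z1) A finite sum of `N I ^ (-s)` over distinct nonzero ideals is bounded by the zeta series. -/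
lemma sum_ideals_le_zetaR {s : ℝ} (hs : 1 < s) (A : Finset (Ideal (𝓞 F))) :
    ∑ I ∈ A, (Ideal.absNorm I : ℝ) ^ (-s) ≤ zetaR F s := by
  classical
  rw [Finset.sum_comp (fun n : ℕ => (n : ℝ) ^ (-s)) (fun I : Ideal (𝓞 F) => Ideal.absNorm I)]
  refine le_trans (Finset.sum_le_sum fun n _ => ?_) (sum_le_zetaR F hs (A.image _))
  rw [nsmul_eq_mul]
  have hpos : (0 : ℝ) ≤ (n : ℝ) ^ (-s) := by positivity
  refine mul_le_mul_of_nonneg_right ?_ hpos
  norm_cast
  rw [idealCount, ← Set.ncard_coe_finset]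
  exact Set.ncard_le_ncard (fun I hI => (Finset.mem_filter.mp hI).2)
    (Ideal.finite_setOfPred_absNorm_eq n)

/-- All ideals of norm at most `X` (the zero ideal included). -/
noncomputable def idealsLE (X : ℕ) : Finset (Ideal (𝓞 F)) :=
  (Ideal.finite_setOfPred_absNorm_le (S := 𝓞 F) X).toFinset

variable {F} in
lemma mem_idealsLE {X : ℕ} {I : Ideal (𝓞 F)} : I ∈ idealsLE F X ↔ Ideal.absNorm I ≤ X := by
  simp [idealsLE]

/-- The partial sums of the zeta series are sums over ideals of bounded norm. -/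
lemma sum_range_eq_sum_idealsLE (X : ℕ) (s : ℝ) :
    ∑ n ∈ Finset.range (X + 1), (idealCount F n : ℝ) * (n : ℝ) ^ (-s) =
      ∑ I ∈ idealsLE F X, (Ideal.absNorm I : ℝ) ^ (-s) := by
  classical
  rw [← Finset.sum_fiberwise_of_maps_to (s := idealsLE F X) (t := Finset.range (X + 1))
    (g := fun I => Ideal.absNorm I)
    (fun I hI => Finset.mem_range.mpr (Nat.lt_succ_of_le (mem_idealsLE.mp hI)))]
  refine Finset.sum_congr rfl fun n hn => ?_
  rw [Finset.sum_congr rfl (g := fun _ => (n : ℝ) ^ (-s))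
    (fun I hI => by rw [(Finset.mem_filter.mp hI).2]), Finset.sum_const, nsmul_eq_mul]
  congr 2
  rw [idealCount, ← Set.ncard_coe_finset]
  change Nat.card ↥{I : Ideal (𝓞 F) | Ideal.absNorm I = n} = _
  rw [Nat.card_coe_set_eq]
  congr 1
  ext I
  simp only [Finset.coe_filter, mem_idealsLE, Set.mem_ofPred_eq]
  have hn' : n ≤ X := Nat.lt_succ_iff.mp (Finset.mem_range.mp hn)
  constructor
  · intro h
    exact ⟨h ▸ hn', h⟩
  · rintro ⟨_, h⟩
    exact h

end Fermat.Agent.S14.NonSplit
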