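/-
T14 package NS-a (helper21): the upper bound (U):
`exp (∑_{P ∈ T} N P ^ (-s)) ≤ ζ_F(s) * exp (ζ_F(2))` for every finite set `T` of nonzero primes.
-/
import Fermat.Agent.S14.NonSplit.Zeta
import Fermat.Agent.S14.NonSplit.Defs

set_option autoImplicit false

open NumberField Filter Topology

namespace Fermat.Agent.S14.NonSplit

/-- Products over subsets of a finite set of primes determine the subset. -/
lemma prod_injOn_powerset_of_prime {M : Type*} [CommMonoidWithZero M] [IsCancelMulZero M] [Subsingleton Mˣ]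
    (T : Finset M) (hT : ∀ p ∈ T, Prime p) :
    Set.InjOn (fun S : Finset M => ∏ p ∈ S, p) (T.powerset : Set (Finset M)) := by
  classical
  have key : ∀ S S' : Finset M, S ⊆ T → S' ⊆ T → ∏ p ∈ S, p = ∏ p ∈ S', p → S ⊆ S' := by
    intro S S' hS hS' h p hp
    have hpp : Prime p := hT p (hS hp)
    have hdvd : p ∣ ∏ q ∈ S', q := h ▸ Finset.dvd_prod_of_mem _ hp
    obtain ⟨q, hq, hpq⟩ := (Prime.dvd_finsetProd_iff hpp _).mp hdvd
    have : p = q := by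
      have := (hpp.dvd_prime_iff_associated (hT q (hS' hq))).mp hpq
      exact associated_iff_eq.mp this
    exact this ▸ hq
  intro S hS S' hS' h
  have hS1 : S ⊆ T := Finset.mem_powerset.mp hS
  have hS2 : S' ⊆ T := Finset.mem_powerset.mp hS'
  exact Finset.Subset.antisymm (key S S' hS1 hS2 h) (key S' S hS2 hS1 h.symm)

lemma exp_sub_sq_le_one_add {x : ℝ} (hx : 0 ≤ x) : Real.exp (x - x ^ 2) ≤ 1 + x := by
  have h1 : 0 < 1 - x + x ^ 2 := by nlinarith [sq_nonneg (x - 1 / 2)]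
  have h2 : Real.exp (x - x ^ 2) * (1 - x + x ^ 2) ≤ 1 := by
    have h3 : 1 - x + x ^ 2 ≤ Real.exp (-(x - x ^ 2)) := by
      have := Real.add_one_le_exp (-(x - x ^ 2))
      linarith
    calc Real.exp (x - x ^ 2) * (1 - x + x ^ 2)
        ≤ Real.exp (x - x ^ 2) * Real.exp (-(x - x ^ 2)) :=
          mul_le_mul_of_nonneg_left h3 (Real.exp_pos _).le
      _ = 1 := by rw [← Real.exp_add]; simp
  have h4 : 1 ≤ (1 + x) * (1 - x + x ^ 2) := by nlinarith [pow_nonneg hx 3]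
  have h5 : Real.exp (x - x ^ 2) * (1 - x + x ^ 2) ≤ (1 + x) * (1 - x + x ^ 2) := h2.trans h4
  exact le_of_mul_le_mul_right h5 h1

variable (F : Type*) [Field F] [NumberField F]

/-- `∏_{P ∈ T} (1 + N P ^ (-s)) ≤ ζ_F(s)` for a finite set `T` of nonzero prime ideals. -/
lemma prod_one_add_le_zetaR {s : ℝ} (hs : 1 < s) (T : Finset (Ideal (𝓞 F)))
    (hT : ∀ P ∈ T, P.IsPrime ∧ P ≠ ⊥) :
    ∏ P ∈ T, (1 + (Ideal.absNorm P : ℝ) ^ (-s)) ≤ zetaR F s := by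
  classical
  rw [Finset.prod_one_add]
  have hinj := prod_injOn_powerset_of_prime T
    (fun P hP => Ideal.prime_of_isPrime (hT P hP).2 (hT P hP).1)
  have h1 : ∀ S ∈ T.powerset, ∏ P ∈ S, (Ideal.absNorm P : ℝ) ^ (-s) =
      (Ideal.absNorm (∏ P ∈ S, P) : ℝ) ^ (-s) := by
    intro S _
    rw [Real.finsetProd_rpow _ _ (fun P _ => Nat.cast_nonneg _), map_prod, Nat.cast_prod]
  rw [Finset.sum_congr rfl h1,
    ← Finset.sum_image (f := fun I : Ideal (𝓞 F) => (Ideal.absNorm I : ℝ) ^ (-s)) hinj]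
  exact sum_ideals_le_zetaR F hs _

/-- The quadratic terms are bounded by `ζ_F(2)`. -/
lemma sum_sq_le_zetaR {s : ℝ} (hs : 1 ≤ s) (T : Finset (Ideal (𝓞 F)))
    (hT : ∀ P ∈ T, P ≠ ⊥) :
    ∑ P ∈ T, ((Ideal.absNorm P : ℝ) ^ (-s)) ^ 2 ≤ zetaR F 2 := by
  refine le_trans (Finset.sum_le_sum fun P hP => ?_)
    (sum_ideals_le_zetaR F (by norm_num : (1 : ℝ) < 2) T)
  have h1 : (1 : ℝ) ≤ (Ideal.absNorm P : ℝ) := by
    have : Ideal.absNorm P ≠ 0 := by
      rw [Ne, Ideal.absNorm_eq_zero_iff]; exact hT P hP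
    exact_mod_cast Nat.one_le_iff_ne_zero.mpr this
  rw [← Real.rpow_natCast, ← Real.rpow_mul (by positivity)]
  exact Real.rpow_le_rpow_of_exponent_le h1 (by push_cast; linarith)

/-- (U) `exp (∑_{P ∈ T} N P ^ (-s)) ≤ ζ_F(s) * exp (ζ_F(2))`. -/
lemma exp_sum_le_zetaR {s : ℝ} (hs : 1 < s) (T : Finset (Ideal (𝓞 F)))
    (hT : ∀ P ∈ T, P.IsPrime ∧ P ≠ ⊥) :
    Real.exp (∑ P ∈ T, (Ideal.absNorm P : ℝ) ^ (-s)) ≤ zetaR F s * Real.exp (zetaR F 2) := by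
  have hx : ∀ P ∈ T, (0 : ℝ) ≤ (Ideal.absNorm P : ℝ) ^ (-s) := fun P _ => by positivity
  -- the quadratic terms
  have hsq : ∑ P ∈ T, ((Ideal.absNorm P : ℝ) ^ (-s)) ^ 2 ≤ zetaR F 2 :=
    sum_sq_le_zetaR F hs.le T (fun P hP => (hT P hP).2)
  have h2 : Real.exp (∑ P ∈ T, ((Ideal.absNorm P : ℝ) ^ (-s) -
      ((Ideal.absNorm P : ℝ) ^ (-s)) ^ 2)) ≤ zetaR F s := by
    rw [Real.exp_sum]
    refine le_trans (Finset.prod_le_prod (fun _ _ => (Real.exp_pos _).le)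
      (fun P hP => exp_sub_sq_le_one_add (hx P hP))) (prod_one_add_le_zetaR F hs T hT)
  rw [Finset.sum_sub_distrib] at h2
  calc Real.exp (∑ P ∈ T, (Ideal.absNorm P : ℝ) ^ (-s))
      = Real.exp (∑ P ∈ T, (Ideal.absNorm P : ℝ) ^ (-s) -
          ∑ P ∈ T, ((Ideal.absNorm P : ℝ) ^ (-s)) ^ 2) *
          Real.exp (∑ P ∈ T, ((Ideal.absNorm P : ℝ) ^ (-s)) ^ 2) := by
        rw [← Real.exp_add]; congr 1; ring
    _ ≤ zetaR F s * Real.exp (zetaR F 2) :=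
        mul_le_mul h2 (Real.exp_le_exp.mpr hsq) (Real.exp_pos _).le (zetaR_nonneg F s)

/-- (U) for the degree one primes of norm at most `X`. -/
theorem exp_primeSum_le {s : ℝ} (hs : 1 < s) (X : ℕ) :
    Real.exp (primeSum F X s) ≤ zetaR F s * Real.exp (zetaR F 2) :=
  exp_sum_le_zetaR F hs _
    (fun _ hP => ⟨(mem_degOnePrimes.mp hP).1, ne_bot_of_mem_degOnePrimes hP⟩)

end Fermat.Agent.S14.NonSplit
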