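/-
T14 package NS-a (helper21): the lower bound (L):
`∑_{n ≤ X} a(n) n^(-s) ≤ exp (primeSum F X s + C_F)` with a constant `C_F` independent of `X`, `s ≥ 1`.
-/
import Fermat.Agent.S14.NonSplit.Zeta
import Fermat.Agent.S14.NonSplit.Defs
import Fermat.Agent.S14.NonSplit.EulerBound
import Fermat.Agent.S14.NonSplit.Upper

set_option autoImplicit false

open NumberField Filter Topology UniqueFactorizationMonoid

namespace Fermat.Agent.S14.NonSplit

lemma inv_one_sub_le_exp {x : ℝ} (_h0 : 0 ≤ x) (h1 : x ≤ 1 / 2) :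
    (1 - x)⁻¹ ≤ Real.exp (x + 2 * x ^ 2) := by
  have hpos : 0 < 1 - x := by linarith
  have h2 : (1 - x)⁻¹ = 1 + x / (1 - x) := by field_simp; ring
  have h3 : x / (1 - x) ≤ x + 2 * x ^ 2 := by
    rw [div_le_iff₀ hpos]
    nlinarith [mul_nonneg (sq_nonneg x) (by linarith : 0 ≤ 1 - 2 * x)]
  calc (1 - x)⁻¹ = x / (1 - x) + 1 := by rw [h2]; ring
    _ ≤ Real.exp (x / (1 - x)) := Real.add_one_le_exp _
    _ ≤ Real.exp (x + 2 * x ^ 2) := Real.exp_le_exp.mpr h3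

variable (F : Type*) [Field F] [NumberField F]

/-- `I ↦ N I ^ (-s)` as a monoid homomorphism. -/
noncomputable def normPow (s : ℝ) : Ideal (𝓞 F) →* ℝ where
  toFun I := (Ideal.absNorm I : ℝ) ^ (-s)
  map_one' := by simp
  map_mul' I J := by
    simp only [map_mul, Nat.cast_mul]
    exact Real.mul_rpow (Nat.cast_nonneg _) (Nat.cast_nonneg _)

@[simp] lemma normPow_apply (s : ℝ) (I : Ideal (𝓞 F)) :
    normPow F s I = (Ideal.absNorm I : ℝ) ^ (-s) := rfl

/-- The nonzero prime ideals of norm at most `X`. -/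
noncomputable def primesLE (X : ℕ) : Finset (Ideal (𝓞 F)) :=
  open Classical in (idealsLE F X).filter (fun P => P.IsPrime ∧ P ≠ ⊥)

variable {F} in
lemma mem_primesLE {X : ℕ} {P : Ideal (𝓞 F)} :
    P ∈ primesLE F X ↔ Ideal.absNorm P ≤ X ∧ P.IsPrime ∧ P ≠ ⊥ := by
  classical
  simp [primesLE, mem_idealsLE]

variable {F} in
lemma two_le_absNorm {P : Ideal (𝓞 F)} (hP : P.IsPrime) (h0 : P ≠ ⊥) : 2 ≤ Ideal.absNorm P := by
  have h1 : Ideal.absNorm P ≠ 0 := by rwa [Ne, Ideal.absNorm_eq_zero_iff]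
  have h2 : Ideal.absNorm P ≠ 1 := by rw [Ne, Ideal.absNorm_eq_one_iff]; exact hP.ne_top
  omega

variable {F} in
lemma normPow_le_half {P : Ideal (𝓞 F)} (hP : P.IsPrime) (h0 : P ≠ ⊥) {s : ℝ} (hs : 1 ≤ s) :
    (Ideal.absNorm P : ℝ) ^ (-s) ≤ 1 / 2 := by
  have h2 : (2 : ℝ) ≤ (Ideal.absNorm P : ℝ) := by exact_mod_cast two_le_absNorm hP h0
  calc (Ideal.absNorm P : ℝ) ^ (-s) ≤ (Ideal.absNorm P : ℝ) ^ (-1 : ℝ) :=
        Real.rpow_le_rpow_of_exponent_le (by linarith) (by linarith)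
    _ = (Ideal.absNorm P : ℝ)⁻¹ := Real.rpow_neg_one _
    _ ≤ 1 / 2 := by
        rw [one_div]
        exact inv_anti₀ (by norm_num) h2

/-- (L1) the sum over ideals of norm at most `X` is bounded by the partial Euler product. -/
lemma sum_idealsLE_le_prod {s : ℝ} (hs : 1 ≤ s) (X : ℕ) :
    ∑ I ∈ idealsLE F X, (Ideal.absNorm I : ℝ) ^ (-s) ≤
      ∏ P ∈ primesLE F X, (1 - (Ideal.absNorm P : ℝ) ^ (-s))⁻¹ := by
  classical
  have hs0 : -s ≠ 0 := by linarith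
  have h1 : ∑ I ∈ idealsLE F X, (Ideal.absNorm I : ℝ) ^ (-s) =
      ∑ I ∈ (idealsLE F X).filter (fun I => I ≠ ⊥), normPow F s I := by
    rw [Finset.sum_filter]
    refine Finset.sum_congr rfl fun I _ => ?_
    split_ifs with h
    · rfl
    · rw [not_not.mp h]
      simp [Real.zero_rpow hs0]
  rw [h1]
  refine sum_le_prod_inv_one_sub (normPow F s) (primesLE F X) ?_ _ ?_
  · intro P hP
    obtain ⟨_, hP1, hP2⟩ := mem_primesLE.mp hP
    refine ⟨by simp only [normPow_apply]; positivity, ?_⟩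
    have := normPow_le_half hP1 hP2 hs
    simp only [normPow_apply]
    linarith
  · intro I hI
    obtain ⟨hI1, hI2⟩ := Finset.mem_filter.mp hI
    refine ⟨hI2, fun P hP => ?_⟩
    have hprime := prime_of_normalized_factor P hP
    have hdvd : Ideal.absNorm P ∣ Ideal.absNorm I :=
      map_dvd Ideal.absNorm (dvd_of_mem_normalizedFactors hP)
    have hIpos : 0 < Ideal.absNorm I :=
      Nat.pos_of_ne_zero (by rwa [Ne, Ideal.absNorm_eq_zero_iff])
    exact mem_primesLE.mpr ⟨(Nat.le_of_dvd hIpos hdvd).trans (mem_idealsLE.mp hI1),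
      Ideal.isPrime_of_prime hprime, hprime.ne_zero⟩

/-- At most `[F : ℚ]` prime ideals contain a given rational prime. -/
lemma card_le_finrank_of_mem {p : ℕ} (hp : p.Prime) (S : Finset (Ideal (𝓞 F)))
    (hS : ∀ P ∈ S, P.IsPrime ∧ (p : 𝓞 F) ∈ P) : S.card ≤ Module.finrank ℤ (𝓞 F) := by
  classical
  have hp0 : (p : 𝓞 F) ≠ 0 := Nat.cast_ne_zero.mpr hp.ne_zero
  have hne : ∀ P ∈ S, P ≠ ⊥ := by
    rintro P hP rfl
    exact hp0 (by simpa using (hS _ hP).2)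
  have hdvd : ∏ P ∈ S, P ∣ Ideal.span {(p : 𝓞 F)} :=
    Finset.prod_primes_dvd _ (fun P hP => Ideal.prime_of_isPrime (hne P hP) (hS P hP).1)
      (fun P hP => Ideal.dvd_span_singleton.mpr (hS P hP).2)
  have h1 : ∏ P ∈ S, Ideal.absNorm P ∣ p ^ Module.finrank ℤ (𝓞 F) := by
    have := map_dvd Ideal.absNorm hdvd
    rwa [map_prod, Ideal.absNorm_span_natCast] at this
  have h2 : ∀ P ∈ S, p ∣ Ideal.absNorm P := by
    intro P hP
    have h3 : Ideal.absNorm P ∣ p ^ Module.finrank ℤ (𝓞 F) :=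
      (Finset.dvd_prod_of_mem _ hP).trans h1
    obtain ⟨k, _, hk⟩ := (Nat.dvd_prime_pow hp).mp h3
    have hk0 : k ≠ 0 := by
      rintro rfl
      have := two_le_absNorm (hS P hP).1 (hne P hP)
      rw [hk] at this
      norm_num at this
    rw [hk]
    exact dvd_pow_self p hk0
  have h4 : p ^ S.card ∣ p ^ Module.finrank ℤ (𝓞 F) := by
    refine dvd_trans ?_ h1
    rw [← Finset.prod_const]
    exact Finset.prod_dvd_prod_of_dvd _ _ h2
  exact (Nat.pow_dvd_pow_iff_le_right hp.one_lt).mp h4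

/-- (L4) the primes of degree at least two contribute a bounded amount. -/
lemma sum_not_degOne_le {s : ℝ} (hs : 1 ≤ s) (T : Finset (Ideal (𝓞 F)))
    (hT : ∀ P ∈ T, P.IsPrime ∧ P ≠ ⊥ ∧ ¬ (Ideal.absNorm P).Prime) :
    ∑ P ∈ T, (Ideal.absNorm P : ℝ) ^ (-s) ≤
      (Module.finrank ℤ (𝓞 F) : ℝ) * ∑' n : ℕ, ((n : ℝ) ^ 2)⁻¹ := by
  classical
  -- the rational prime below `P`
  let r : Ideal (𝓞 F) → ℕ := fun P => (Ideal.absNorm P).minFac
  have hr : ∀ P ∈ T, (r P).Prime ∧ ((r P : ℕ) : 𝓞 F) ∈ P ∧ (r P) ^ 2 ≤ Ideal.absNorm P := by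
    intro P hP
    obtain ⟨hP1, hP2, hP3⟩ := hT P hP
    have : P.IsMaximal := hP1.isMaximal hP2
    obtain ⟨p, n, hn, hpP, hp, hN⟩ := Ideal.exists_prime_and_absNorm_eq_pow P
    have hrp : r P = p := by
      simp only [r, hN]
      exact hp.pow_minFac hn.ne'
    have hn2 : 2 ≤ n := by
      rcases Nat.lt_or_ge n 2 with h | h
      · exfalso
        have : n = 1 := by omega
        rw [this, pow_one] at hN
        exact hP3 (hN ▸ hp)
      · exact h
    refine ⟨hrp ▸ hp, hrp ▸ hpP, ?_⟩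
    rw [hrp, hN]
    exact Nat.pow_le_pow_right hp.pos hn2
  have hsum : Summable (fun n : ℕ => ((n : ℝ) ^ 2)⁻¹) :=
    Real.summable_nat_pow_inv.mpr (by norm_num)
  calc ∑ P ∈ T, (Ideal.absNorm P : ℝ) ^ (-s)
      ≤ ∑ P ∈ T, (((r P : ℕ) : ℝ) ^ 2)⁻¹ := by
        refine Finset.sum_le_sum fun P hP => ?_
        obtain ⟨h1, _, h3⟩ := hr P hP
        have hN1 : (1 : ℝ) ≤ (Ideal.absNorm P : ℝ) := by
          have := two_le_absNorm (hT P hP).1 (hT P hP).2.1
          exact_mod_cast (by omega : 1 ≤ Ideal.absNorm P)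
        calc (Ideal.absNorm P : ℝ) ^ (-s) ≤ (Ideal.absNorm P : ℝ) ^ (-1 : ℝ) :=
              Real.rpow_le_rpow_of_exponent_le hN1 (by linarith)
          _ = (Ideal.absNorm P : ℝ)⁻¹ := Real.rpow_neg_one _
          _ ≤ (((r P : ℕ) : ℝ) ^ 2)⁻¹ := by
              refine inv_anti₀ (by have := h1.pos; positivity) ?_
              exact_mod_cast h3
    _ = ∑ p ∈ T.image r, (T.filter (fun P => r P = p)).card • (((p : ℕ) : ℝ) ^ 2)⁻¹ :=
        Finset.sum_comp (fun p : ℕ => ((p : ℝ) ^ 2)⁻¹) r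
    _ ≤ ∑ p ∈ T.image r, (Module.finrank ℤ (𝓞 F) : ℝ) * (((p : ℕ) : ℝ) ^ 2)⁻¹ := by
        refine Finset.sum_le_sum fun p hp => ?_
        rw [nsmul_eq_mul]
        refine mul_le_mul_of_nonneg_right ?_ (by positivity)
        obtain ⟨P0, hP0, rfl⟩ := Finset.mem_image.mp hp
        have := card_le_finrank_of_mem F (hr P0 hP0).1 (T.filter (fun P => r P = r P0))
          (fun P hP => by
            obtain ⟨hPT, hPr⟩ := Finset.mem_filter.mp hP
            exact ⟨(hT P hPT).1, hPr ▸ (hr P hPT).2.1⟩)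
        exact_mod_cast this
    _ = (Module.finrank ℤ (𝓞 F) : ℝ) * ∑ p ∈ T.image r, (((p : ℕ) : ℝ) ^ 2)⁻¹ := by
        rw [Finset.mul_sum]
    _ ≤ (Module.finrank ℤ (𝓞 F) : ℝ) * ∑' n : ℕ, ((n : ℝ) ^ 2)⁻¹ := by
        refine mul_le_mul_of_nonneg_left ?_ (Nat.cast_nonneg _)
        exact hsum.sum_le_tsum _ (fun n _ => by positivity)

/-- The constant in the lower bound (L). -/
noncomputable def lowerConst : ℝ :=
  (Module.finrank ℤ (𝓞 F) : ℝ) * ∑' n : ℕ, ((n : ℝ) ^ 2)⁻¹ + 2 * zetaR F 2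

lemma degOnePrimes_eq_filter (X : ℕ) :
    degOnePrimes F X = (primesLE F X).filter (fun P => (Ideal.absNorm P).Prime) := by
  classical
  ext P
  rw [Finset.mem_filter, mem_primesLE, mem_degOnePrimes]
  constructor
  · rintro ⟨h1, h2, h3⟩
    refine ⟨⟨h3, h1, ?_⟩, h2⟩
    rintro rfl
    simp [Nat.not_prime_zero] at h2
  · rintro ⟨⟨h1, h2, _⟩, h4⟩
    exact ⟨h2, h4, h1⟩

/-- (L) the partial sums of the zeta series are bounded by `exp (primeSum + C)`. -/
theorem sum_range_le_exp_primeSum {s : ℝ} (hs : 1 ≤ s) (X : ℕ) :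
    ∑ n ∈ Finset.range (X + 1), (idealCount F n : ℝ) * (n : ℝ) ^ (-s) ≤
      Real.exp (primeSum F X s + lowerConst F) := by
  classical
  have hmem : ∀ P ∈ primesLE F X, P.IsPrime ∧ P ≠ ⊥ := fun P hP =>
    ⟨(mem_primesLE.mp hP).2.1, (mem_primesLE.mp hP).2.2⟩
  rw [sum_range_eq_sum_idealsLE]
  refine (sum_idealsLE_le_prod F hs X).trans ?_
  have h1 : ∏ P ∈ primesLE F X, (1 - (Ideal.absNorm P : ℝ) ^ (-s))⁻¹ ≤
      ∏ P ∈ primesLE F X, Real.exp ((Ideal.absNorm P : ℝ) ^ (-s) +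
        2 * ((Ideal.absNorm P : ℝ) ^ (-s)) ^ 2) := by
    refine Finset.prod_le_prod (fun P hP => ?_) (fun P hP => ?_)
    · have := normPow_le_half (hmem P hP).1 (hmem P hP).2 hs
      exact inv_nonneg.mpr (by linarith)
    · exact inv_one_sub_le_exp (by positivity) (normPow_le_half (hmem P hP).1 (hmem P hP).2 hs)
  refine h1.trans ?_
  rw [← Real.exp_sum, Real.exp_le_exp, Finset.sum_add_distrib, ← Finset.mul_sum]
  have h2 : ∑ P ∈ primesLE F X, (Ideal.absNorm P : ℝ) ^ (-s) ≤ primeSum F X s +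
      (Module.finrank ℤ (𝓞 F) : ℝ) * ∑' n : ℕ, ((n : ℝ) ^ 2)⁻¹ := by
    rw [← Finset.sum_filter_add_sum_filter_not (primesLE F X)
      (fun P => (Ideal.absNorm P).Prime), ← degOnePrimes_eq_filter]
    refine add_le_add le_rfl (sum_not_degOne_le F hs _ fun P hP => ?_)
    obtain ⟨hP1, hP2⟩ := Finset.mem_filter.mp hP
    exact ⟨(hmem P hP1).1, (hmem P hP1).2, hP2⟩
  have h3 := sum_sq_le_zetaR F hs (primesLE F X) (fun P hP => (hmem P hP).2)
  unfold lowerConst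
  linarith

end Fermat.Agent.S14.NonSplit
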