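/-
T14 package NS-a (helper21): convenience exports of the single-field analytic facts
(for the analytic hedge SI-AN and other consumers).
-/
import Fermat.Agent.S14.NonSplit.Lower
import Fermat.Agent.S14.NonSplit.Upper

set_option autoImplicit false

open NumberField Filter Topology

namespace Fermat.Agent.S14.NonSplit

variable (F : Type*) [Field F] [NumberField F]

lemma primeSum_nonneg (X : ℕ) (s : ℝ) : 0 ≤ primeSum F X s :=
  Finset.sum_nonneg fun _ _ => by positivity

lemma degOnePrimes_mono {X Y : ℕ} (h : X ≤ Y) : degOnePrimes F X ⊆ degOnePrimes F Y := by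
  intro P hP
  obtain ⟨h1, h2, h3⟩ := mem_degOnePrimes.mp hP
  exact mem_degOnePrimes.mpr ⟨h1, h2, h3.trans h⟩

lemma primeSum_mono {X Y : ℕ} (h : X ≤ Y) (s : ℝ) : primeSum F X s ≤ primeSum F Y s :=
  Finset.sum_le_sum_of_subset_of_nonneg (degOnePrimes_mono F h) fun _ _ _ => by positivity

/-- (L) in the limit: a uniform bound on the prime sums bounds the zeta function. -/
theorem zetaR_le_exp_of_primeSum_le {s : ℝ} (hs : 1 < s) {S : ℝ}
    (hS : ∀ X : ℕ, primeSum F X s ≤ S) : zetaR F s ≤ Real.exp (S + lowerConst F) := by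
  refine Real.tsum_le_of_sum_range_le (fun n => zetaTerm_nonneg F s n) fun N => ?_
  have h1 : ∑ n ∈ Finset.range N, (idealCount F n : ℝ) * (n : ℝ) ^ (-s) ≤
      ∑ n ∈ Finset.range (N + 1), (idealCount F n : ℝ) * (n : ℝ) ^ (-s) :=
    Finset.sum_le_sum_of_subset_of_nonneg (Finset.range_mono (Nat.le_succ N))
      fun n _ _ => zetaTerm_nonneg F s n
  refine h1.trans ((sum_range_le_exp_primeSum F hs.le N).trans ?_)
  exact Real.exp_le_exp.mpr (by linarith [hS N])

/-- (L) with an explicit `X`: for every `ε > 0` some prime sum almost dominates `log ζ_F(s)`. -/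
theorem exists_zetaR_le_exp_primeSum_add {s : ℝ} (hs : 1 < s) {ε : ℝ} (hε : 0 < ε) :
    ∃ X : ℕ, zetaR F s ≤ Real.exp (primeSum F X s + lowerConst F) + ε := by
  have h := (summable_zetaTerm F hs).hasSum.tendsto_sum_nat
  have h2 : ∀ᶠ N : ℕ in atTop,
      zetaR F s - ε < ∑ n ∈ Finset.range N, (idealCount F n : ℝ) * (n : ℝ) ^ (-s) :=
    h.eventually (lt_mem_nhds (by unfold zetaR; linarith))
  obtain ⟨N, hN⟩ := h2.exists
  refine ⟨N, ?_⟩
  have h1 : ∑ n ∈ Finset.range N, (idealCount F n : ℝ) * (n : ℝ) ^ (-s) ≤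
      ∑ n ∈ Finset.range (N + 1), (idealCount F n : ℝ) * (n : ℝ) ^ (-s) :=
    Finset.sum_le_sum_of_subset_of_nonneg (Finset.range_mono (Nat.le_succ N))
      fun n _ _ => zetaTerm_nonneg F s n
  have := sum_range_le_exp_primeSum F hs.le N
  linarith

/-- Near `s = 1⁺` the zeta function is squeezed between two multiples of `1 / (s - 1)`. -/
theorem exists_zetaR_bounds :
    ∃ δ : ℝ, 0 < δ ∧ ∀ s : ℝ, 1 < s → s < 1 + δ →
      dedekindZeta_residue F / 2 ≤ (s - 1) * zetaR F s ∧
        (s - 1) * zetaR F s ≤ 2 * dedekindZeta_residue F := by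
  have hρ := dedekindZeta_residue_pos F
  have h := tendsto_sub_one_mul_zetaR F
  have h1 : ∀ᶠ s in 𝓝[>] (1 : ℝ), dedekindZeta_residue F / 2 < (s - 1) * zetaR F s :=
    h.eventually (lt_mem_nhds (by linarith))
  have h2 : ∀ᶠ s in 𝓝[>] (1 : ℝ), (s - 1) * zetaR F s < 2 * dedekindZeta_residue F :=
    h.eventually (gt_mem_nhds (by linarith))
  obtain ⟨u, hu, hu2⟩ := (mem_nhdsGT_iff_exists_Ioo_subset).mp (h1.and h2)
  refine ⟨u - 1, by simpa using hu, fun s hs1 hs2 => ?_⟩
  have := hu2 (⟨hs1, by linarith⟩ : s ∈ Set.Ioo 1 u)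
  exact ⟨this.1.le, this.2.le⟩

end Fermat.Agent.S14.NonSplit
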