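/-
T14 package NS-b (comparison `L/K`): splitting behaviour of a prime of `K` having a prime of `L`
above it with `e = f = 1`, in a Galois extension of number fields, and the resulting
"sum over primes" identity used in the analytic proof of `exists_prime_not_split`.
-/
import Mathlib
import Fermat.Agent.S14.NonSplit.Defs

set_option autoImplicit false

open NumberField

namespace Fermat.Agent.S14.NonSplit

section

variable (K L : Type*) [Field K] [NumberField K] [Field L] [NumberField L] [Algebra K L]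
  [IsGalois K L]

theorem isGaloisGroup_ringOfIntegers : IsGaloisGroup (L ≃ₐ[K] L) (𝓞 K) (𝓞 L) :=
  IsGaloisGroup.of_isFractionRing (L ≃ₐ[K] L) (𝓞 K) (𝓞 L) K L

variable {K L}

/-- In a Galois extension, if one prime above `𝔭` has `e = f = 1`, all of them do, they all have
the same absolute norm as `𝔭`, and there are exactly `[L:K]` of them. -/
theorem split_all {𝔭 : Ideal (𝓞 K)} [𝔭.IsPrime] (P : Ideal (𝓞 L)) [P.IsPrime]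
    (hP : P.under (𝓞 K) = 𝔭) (he : P.ramificationIdx (𝓞 K) = 1)
    (hf : P.inertiaDeg (𝓞 K) = 1) :
    (∀ Q : Ideal (𝓞 L), Q.IsPrime → Q.under (𝓞 K) = 𝔭 →
      Q.ramificationIdx (𝓞 K) = 1 ∧ Q.inertiaDeg (𝓞 K) = 1 ∧
        Ideal.absNorm Q = Ideal.absNorm 𝔭) ∧
    (𝔭.primesOver (𝓞 L)).ncard = Module.finrank K L := by
  have := isGaloisGroup_ringOfIntegers K L
  have : P.LiesOver 𝔭 := ⟨hP.symm⟩
  have hall : ∀ Q : Ideal (𝓞 L), Q.IsPrime → Q.under (𝓞 K) = 𝔭 →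
      Q.ramificationIdx (𝓞 K) = 1 ∧ Q.inertiaDeg (𝓞 K) = 1 := by
    intro Q hQ hQ𝔭
    have : Q.LiesOver 𝔭 := ⟨hQ𝔭.symm⟩
    exact ⟨(Ideal.ramificationIdx_eq_of_isGaloisGroup 𝔭 Q P (L ≃ₐ[K] L)).trans he,
      (Ideal.inertiaDeg_eq_of_isGaloisGroup 𝔭 Q P (L ≃ₐ[K] L)).trans hf⟩
  refine ⟨fun Q hQ hQ𝔭 => ⟨(hall Q hQ hQ𝔭).1, (hall Q hQ hQ𝔭).2, ?_⟩, ?_⟩
  · have : Q.LiesOver 𝔭 := ⟨hQ𝔭.symm⟩
    have := Ideal.absNorm_pow_inertiaDeg 𝔭 Q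
    rw [(hall Q hQ hQ𝔭).2, pow_one] at this
    exact this.symm
  · have h := Ideal.ncard_primesOver_mul_ramificationIdxIn_mul_inertiaDegIn 𝔭 (𝓞 L) (L ≃ₐ[K] L)
    rw [Ideal.ramificationIdxIn_eq_ramificationIdx 𝔭 P (L ≃ₐ[K] L),
      Ideal.inertiaDegIn_eq_inertiaDeg 𝔭 P (L ≃ₐ[K] L), he, hf, mul_one, mul_one,
      IsGalois.card_aut_eq_finrank] at h
    exact h

omit [IsGalois K L] in
/-- The primes of `L` above a finite set of primes of `K`. -/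
theorem finite_primes_above (T : Finset (Ideal (𝓞 K))) :
    {P : Ideal (𝓞 L) | P.IsPrime ∧ P.under (𝓞 K) ∈ T}.Finite := by
  have : {P : Ideal (𝓞 L) | P.IsPrime ∧ P.under (𝓞 K) ∈ T} ⊆
      ⋃ 𝔭 ∈ T, 𝔭.primesOver (𝓞 L) := by
    rintro P ⟨hP, hPT⟩
    simp only [Set.mem_iUnion]
    exact ⟨P.under (𝓞 K), hPT, hP, ⟨rfl⟩⟩
  refine Set.Finite.subset ?_ this
  exact Set.Finite.biUnion T.finite_toSet fun 𝔭 _ => Algebra.QuasiFinite.finite_primesOver 𝔭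

/-- Sum form of `split_all`: for a finite set `T` of primes of `K` each having a prime above it
with `e = f = 1`, the set `T'` of primes of `L` above `T` satisfies
`∑_{P ∈ T'} g (N P) = [L:K] * ∑_{𝔭 ∈ T} g (N 𝔭)` for every test function `g`. -/
theorem exists_finset_above (T : Finset (Ideal (𝓞 K)))
    (hT : ∀ 𝔭 ∈ T, 𝔭.IsPrime ∧ 𝔭 ≠ ⊥ ∧ ∃ P : Ideal (𝓞 L), P.IsPrime ∧ P.under (𝓞 K) = 𝔭 ∧
      P.ramificationIdx (𝓞 K) = 1 ∧ P.inertiaDeg (𝓞 K) = 1) :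
    ∃ T' : Finset (Ideal (𝓞 L)),
      (∀ P : Ideal (𝓞 L), P ∈ T' ↔ P.IsPrime ∧ P.under (𝓞 K) ∈ T) ∧
      (∀ P ∈ T', P.IsPrime ∧ P ≠ ⊥ ∧ P.under (𝓞 K) ∈ T ∧
        Ideal.absNorm P = Ideal.absNorm (P.under (𝓞 K))) ∧
      ∀ g : ℕ → ℝ, ∑ P ∈ T', g (Ideal.absNorm P) =
        (Module.finrank K L : ℝ) * ∑ 𝔭 ∈ T, g (Ideal.absNorm 𝔭) := by
  classical
  refine ⟨(finite_primes_above (L := L) T).toFinset, fun P => by simp, ?_, ?_⟩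
  · intro P hP
    rw [Set.Finite.mem_toFinset] at hP
    obtain ⟨hPp, hPT⟩ := hP
    obtain ⟨h𝔭, h𝔭0, P₀, hP₀, hP₀𝔭, he, hf⟩ := hT _ hPT
    refine ⟨hPp, ?_, hPT, ?_⟩
    · rintro rfl
      apply h𝔭0
      rw [← Ideal.under_bot (𝓞 K) (𝓞 L)]
    · exact ((split_all P₀ hP₀𝔭 he hf).1 P hPp rfl).2.2
  · intro g
    rw [← Finset.sum_fiberwise_of_maps_to (s := (finite_primes_above (L := L) T).toFinset)
      (t := T) (g := fun P => P.under (𝓞 K)) (fun P hP => by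
        rw [Set.Finite.mem_toFinset] at hP; exact hP.2), Finset.mul_sum]
    refine Finset.sum_congr rfl fun 𝔭 h𝔭T => ?_
    obtain ⟨h𝔭, h𝔭0, P₀, hP₀, hP₀𝔭, he, hf⟩ := hT _ h𝔭T
    have hsplit := split_all P₀ hP₀𝔭 he hf
    have hfilter : ∀ P ∈ (finite_primes_above (L := L) T).toFinset.filter
        (fun P => P.under (𝓞 K) = 𝔭), g (Ideal.absNorm P) = g (Ideal.absNorm 𝔭) := by
      intro P hP
      rw [Finset.mem_filter, Set.Finite.mem_toFinset] at hP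
      rw [(hsplit.1 P hP.1.1 hP.2).2.2]
    rw [Finset.sum_congr rfl hfilter, Finset.sum_const, nsmul_eq_mul]
    congr 1
    rw [← hsplit.2, ← Set.ncard_coe_finset]
    congr 2
    ext P
    simp only [Finset.coe_filter, Set.Finite.mem_toFinset, Set.mem_ofPred_eq, Ideal.primesOver]
    constructor
    · rintro ⟨⟨hPp, _⟩, hP𝔭⟩
      exact ⟨hPp, ⟨hP𝔭.symm⟩⟩
    · rintro ⟨hPp, ⟨hP𝔭⟩⟩
      exact ⟨⟨hPp, hP𝔭 ▸ h𝔭T⟩, hP𝔭.symm⟩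

/-- Inequality form: if `U` is any finite set of ideals of `L` containing all primes above the
primes in `T`, and `g ≥ 0`, then `[L:K] * ∑_{𝔭 ∈ T} g (N 𝔭) ≤ ∑_{P ∈ U} g (N P)`. -/
theorem mul_sum_le_sum (T : Finset (Ideal (𝓞 K)))
    (hT : ∀ 𝔭 ∈ T, 𝔭.IsPrime ∧ 𝔭 ≠ ⊥ ∧ ∃ P : Ideal (𝓞 L), P.IsPrime ∧ P.under (𝓞 K) = 𝔭 ∧
      P.ramificationIdx (𝓞 K) = 1 ∧ P.inertiaDeg (𝓞 K) = 1)
    (U : Finset (Ideal (𝓞 L))) (hU : ∀ P : Ideal (𝓞 L), P.IsPrime → P.under (𝓞 K) ∈ T → P ∈ U)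
    (g : ℕ → ℝ) (hg : ∀ n, 0 ≤ g n) :
    (Module.finrank K L : ℝ) * ∑ 𝔭 ∈ T, g (Ideal.absNorm 𝔭) ≤ ∑ P ∈ U, g (Ideal.absNorm P) := by
  obtain ⟨T', hT', -, hsum⟩ := exists_finset_above (L := L) T hT
  rw [← hsum g]
  exact Finset.sum_le_sum_of_subset_of_nonneg
    (fun P hP => hU P ((hT' P).1 hP).1 ((hT' P).1 hP).2) fun P _ _ => hg _

end

/-- NS-b, in the shape consumed by the assembly of `exists_prime_not_split` (helper21):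
if every degree-one prime of `K` outside `B` has a prime of `L` above it with `e = f = 1`, then
`[L:K] * ∑_{𝔭 ∈ degOnePrimes K X, 𝔭 ∉ B} N𝔭^(-s) ≤ primeSum L X s`. -/
theorem finrank_mul_sum_le (K L : Type*) [Field K] [NumberField K] [Field L] [NumberField L]
    [Algebra K L] [IsGalois K L] (B : Finset (Ideal (𝓞 K)))
    (hsplit : ∀ 𝔭 : Ideal (𝓞 K), 𝔭.IsPrime → 𝔭 ≠ ⊥ → (Ideal.absNorm 𝔭).Prime → 𝔭 ∉ B →
      ∃ P : Ideal (𝓞 L), P.IsPrime ∧ P.under (𝓞 K) = 𝔭 ∧ P.ramificationIdx (𝓞 K) = 1 ∧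
        P.inertiaDeg (𝓞 K) = 1)
    (X : ℕ) (s : ℝ) (hs : 0 ≤ s) :
    (Module.finrank K L : ℝ) *
        ∑ 𝔭 ∈ (degOnePrimes K X).filter (fun 𝔭 => 𝔭 ∉ B), (Ideal.absNorm 𝔭 : ℝ) ^ (-s) ≤
      primeSum L X s := by
  have _ := hs
  have hT : ∀ 𝔭 ∈ (degOnePrimes K X).filter (fun 𝔭 => 𝔭 ∉ B), 𝔭.IsPrime ∧ 𝔭 ≠ ⊥ ∧
      ∃ P : Ideal (𝓞 L), P.IsPrime ∧ P.under (𝓞 K) = 𝔭 ∧ P.ramificationIdx (𝓞 K) = 1 ∧
        P.inertiaDeg (𝓞 K) = 1 := by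
    intro 𝔭 h𝔭
    rw [Finset.mem_filter] at h𝔭
    have h1 := mem_degOnePrimes.mp h𝔭.1
    exact ⟨h1.1, ne_bot_of_mem_degOnePrimes h𝔭.1,
      hsplit 𝔭 h1.1 (ne_bot_of_mem_degOnePrimes h𝔭.1) h1.2.1 h𝔭.2⟩
  refine mul_sum_le_sum (L := L) _ hT (degOnePrimes L X) ?_
    (fun n : ℕ => (n : ℝ) ^ (-s)) (fun n => Real.rpow_nonneg (Nat.cast_nonneg n) _)
  intro P hP hPT
  rw [Finset.mem_filter] at hPT
  have h1 := mem_degOnePrimes.mp hPT.1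
  obtain ⟨-, -, P₀, hP₀, hP₀𝔭, he, hf⟩ := hT _ (Finset.mem_filter.mpr hPT)
  have hN : Ideal.absNorm P = Ideal.absNorm (P.under (𝓞 K)) :=
    ((split_all P₀ hP₀𝔭 he hf).1 P hP rfl).2.2
  exact mem_degOnePrimes.mpr ⟨hP, hN ▸ h1.2.1, hN ▸ h1.2.2⟩

end Fermat.Agent.S14.NonSplit
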