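/-
T14 package NS (helper21): assembly.  If every degree one prime of `K` outside the finite set `B`
had a prime of `L` above it with `e = f = 1`, then `ζ_K(s)^[L:K] ≤ M * ζ_L(s)` for all real `s > 1`,
which contradicts the simple poles at `s = 1` as soon as `[L:K] ≥ 2`.
-/
import Fermat.Agent.S14.NonSplit.Lower
import Fermat.Agent.S14.NonSplit.Upper
import Fermat.Agent.S14.NonSplit.Compare

set_option autoImplicit false

open NumberField Filter Topology

namespace Fermat.Agent.S14.NonSplit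

section

variable (K L : Type*) [Field K] [NumberField K] [Field L] [NumberField L]
  [Algebra K L] [IsGalois K L] (B : Finset (Ideal (𝓞 K)))

/-- `primeSum K X s ≤ (sum over the primes not in B) + |B|`. -/
lemma primeSum_le_filter_add_card (X : ℕ) {s : ℝ} (hs : 0 ≤ s) :
    primeSum K X s ≤
      ∑ 𝔭 ∈ (degOnePrimes K X).filter (fun 𝔭 => 𝔭 ∉ B), (Ideal.absNorm 𝔭 : ℝ) ^ (-s) +
        (B.card : ℝ) := by
  classical
  unfold primeSum
  rw [← Finset.sum_filter_add_sum_filter_not (degOnePrimes K X) (fun 𝔭 => 𝔭 ∉ B)]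
  refine add_le_add le_rfl ?_
  have h1 : ∀ 𝔭 ∈ (degOnePrimes K X).filter (fun 𝔭 => ¬ 𝔭 ∉ B),
      (Ideal.absNorm 𝔭 : ℝ) ^ (-s) ≤ 1 := by
    intro 𝔭 h𝔭
    have hne := ne_bot_of_mem_degOnePrimes (Finset.mem_filter.mp h𝔭).1
    have h1 : (1 : ℝ) ≤ (Ideal.absNorm 𝔭 : ℝ) := by
      have : Ideal.absNorm 𝔭 ≠ 0 := by rwa [Ne, Ideal.absNorm_eq_zero_iff]
      exact_mod_cast Nat.one_le_iff_ne_zero.mpr this
    exact Real.rpow_le_one_of_one_le_of_nonpos h1 (by linarith)
  refine (Finset.sum_le_card_nsmul _ _ 1 h1).trans ?_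
  rw [nsmul_eq_mul, mul_one]
  have : (degOnePrimes K X).filter (fun 𝔭 => ¬ 𝔭 ∉ B) ⊆ B := by
    intro 𝔭 h𝔭
    exact not_not.mp (Finset.mem_filter.mp h𝔭).2
  exact_mod_cast Finset.card_le_card this

/-- The key inequality between the two zeta functions. -/
lemma zetaR_pow_le
    (hsplit : ∀ 𝔭 : Ideal (𝓞 K), 𝔭.IsPrime → 𝔭 ≠ ⊥ → (Ideal.absNorm 𝔭).Prime → 𝔭 ∉ B →
      ∃ P : Ideal (𝓞 L), P.IsPrime ∧ P.under (𝓞 K) = 𝔭 ∧ P.ramificationIdx (𝓞 K) = 1 ∧
        P.inertiaDeg (𝓞 K) = 1)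
    {s : ℝ} (hs : 1 < s) :
    zetaR K s ^ Module.finrank K L ≤ zetaR L s *
      Real.exp (zetaR L 2 + (Module.finrank K L : ℝ) * B.card +
        (Module.finrank K L : ℝ) * lowerConst K) := by
  set n := Module.finrank K L with hn
  -- the inequality for the partial sums
  have hX : ∀ X : ℕ, (∑ m ∈ Finset.range (X + 1), (idealCount K m : ℝ) * (m : ℝ) ^ (-s)) ^ n ≤
      zetaR L s * Real.exp (zetaR L 2 + (n : ℝ) * B.card + (n : ℝ) * lowerConst K) := by
    intro X
    have h1 := sum_range_le_exp_primeSum K hs.le X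
    have h0 : 0 ≤ ∑ m ∈ Finset.range (X + 1), (idealCount K m : ℝ) * (m : ℝ) ^ (-s) :=
      Finset.sum_nonneg fun m _ => zetaTerm_nonneg K s m
    have h2 := pow_le_pow_left₀ h0 h1 n
    rw [← Real.exp_nat_mul] at h2
    have h3 := finrank_mul_sum_le K L B hsplit X s (by linarith)
    have h4 := primeSum_le_filter_add_card K B X (s := s) (by linarith)
    have h5 := exp_primeSum_le L hs X
    have hn0 : (0 : ℝ) ≤ (n : ℝ) := Nat.cast_nonneg n
    have h6 : (n : ℝ) * (primeSum K X s + lowerConst K) ≤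
        primeSum L X s + ((n : ℝ) * B.card + (n : ℝ) * lowerConst K) := by
      have := mul_le_mul_of_nonneg_left h4 hn0
      rw [← hn] at h3
      nlinarith
    calc (∑ m ∈ Finset.range (X + 1), (idealCount K m : ℝ) * (m : ℝ) ^ (-s)) ^ n
        ≤ Real.exp ((n : ℝ) * (primeSum K X s + lowerConst K)) := h2
      _ ≤ Real.exp (primeSum L X s + ((n : ℝ) * B.card + (n : ℝ) * lowerConst K)) :=
          Real.exp_le_exp.mpr h6
      _ = Real.exp (primeSum L X s) * Real.exp ((n : ℝ) * B.card + (n : ℝ) * lowerConst K) :=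
          Real.exp_add _ _
      _ ≤ (zetaR L s * Real.exp (zetaR L 2)) *
            Real.exp ((n : ℝ) * B.card + (n : ℝ) * lowerConst K) :=
          mul_le_mul_of_nonneg_right h5 (Real.exp_pos _).le
      _ = zetaR L s * Real.exp (zetaR L 2 + (n : ℝ) * B.card + (n : ℝ) * lowerConst K) := by
          rw [mul_assoc, ← Real.exp_add, add_assoc]
  -- pass to the limit
  have hlim : Tendsto (fun X : ℕ =>
      (∑ m ∈ Finset.range (X + 1), (idealCount K m : ℝ) * (m : ℝ) ^ (-s)) ^ n) atTop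
      (𝓝 (zetaR K s ^ n)) := by
    have := (summable_zetaTerm K hs).hasSum.tendsto_sum_nat
    exact ((this.comp (tendsto_add_atTop_nat 1)).pow n)
  exact le_of_tendsto' hlim hX

/-- NS: the contradiction. -/
theorem false_of_forall_split (hdeg : 1 < Module.finrank K L)
    (hsplit : ∀ 𝔭 : Ideal (𝓞 K), 𝔭.IsPrime → 𝔭 ≠ ⊥ → (Ideal.absNorm 𝔭).Prime → 𝔭 ∉ B →
      ∃ P : Ideal (𝓞 L), P.IsPrime ∧ P.under (𝓞 K) = 𝔭 ∧ P.ramificationIdx (𝓞 K) = 1 ∧
        P.inertiaDeg (𝓞 K) = 1) : False := by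
  set n := Module.finrank K L with hn
  set M : ℝ := Real.exp (zetaR L 2 + (n : ℝ) * B.card + (n : ℝ) * lowerConst K) with hM
  have hK := tendsto_sub_one_mul_zetaR K
  have hL := tendsto_sub_one_mul_zetaR L
  have hf : Tendsto (fun s : ℝ => ((s - 1) * zetaR K s) ^ n) (𝓝[>] 1)
      (𝓝 (dedekindZeta_residue K ^ n)) := hK.pow n
  have hpow : Tendsto (fun s : ℝ => (s - 1) ^ (n - 1)) (𝓝[>] 1) (𝓝 0) := by
    have h1 : Tendsto (fun s : ℝ => (s - 1) ^ (n - 1)) (𝓝 1) (𝓝 ((1 - 1) ^ (n - 1))) :=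
      ((continuous_id.sub continuous_const).pow (n - 1)).tendsto 1
    rw [sub_self, zero_pow (by omega)] at h1
    exact tendsto_nhdsWithin_of_tendsto_nhds h1
  have hg : Tendsto (fun s : ℝ => (s - 1) ^ (n - 1) * ((s - 1) * zetaR L s) * M) (𝓝[>] 1)
      (𝓝 (0 * dedekindZeta_residue L * M)) := (hpow.mul hL).mul_const M
  have hle : ∀ᶠ s in 𝓝[>] (1 : ℝ), ((s - 1) * zetaR K s) ^ n ≤
      (s - 1) ^ (n - 1) * ((s - 1) * zetaR L s) * M := by
    filter_upwards [self_mem_nhdsWithin] with s hs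
    have hs1 : (1 : ℝ) < s := hs
    have h1 := zetaR_pow_le K L B hsplit hs1
    have hpos : 0 ≤ (s - 1) ^ n := pow_nonneg (by linarith) n
    calc ((s - 1) * zetaR K s) ^ n = (s - 1) ^ n * zetaR K s ^ n := mul_pow _ _ _
      _ ≤ (s - 1) ^ n * (zetaR L s * M) := mul_le_mul_of_nonneg_left h1 hpos
      _ = (s - 1) ^ (n - 1) * ((s - 1) * zetaR L s) * M := by
          have : n = (n - 1) + 1 := by omega
          conv_lhs => rw [this, pow_succ]
          ring
  have := le_of_tendsto_of_tendsto hf hg hle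
  rw [zero_mul, zero_mul] at this
  have hpos : 0 < dedekindZeta_residue K ^ n := pow_pos (dedekindZeta_residue_pos K) n
  linarith

end

end Fermat.Agent.S14.NonSplit
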